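/-
Programme MAZ (S15), brick U6 TORS-CMP, part (T3-Q) (helper32), file 1: **(T3) for helper94's
`FOmega`.**

`c0 : TwoChart W B0 B1 B01` finite projective over the line, `K1 → K2` fields over `W` such that the
base-changed charts `K_i ⊗[W] B0`, `K_i ⊗[W] B1` are Dedekind domains and the overlaps
`K_i ⊗[W] B01` are domains.  With `FOmega c0 K := FractionRing (K ⊗[W] B01)` (helper94):

  `genusFF_FOmega_eq : genusFF K2 (FOmega c0 K2) = genusFF K1 (FOmega c0 K1)`.

This is helper12's `TorsCmp12.genusFF_eq_of_baseChange` at `F_i := FOmega c0 K_i`; the fraction-ring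
instances are helper94's `isFractionRing0/1_baseChange`, all the other instances are Mathlib's /
`Jac.BaseChange75`'s.
-/
import Mathlib
import Fermat.Agent.MAZ.TorsCmp12.Genus
import Fermat.Agent.MAZ.TorsCmp94.BaseChange

set_option autoImplicit false
set_option linter.unusedSectionVars false
set_option linter.style.haveILetI false

universe u

open TensorProduct AlgebraicCurve

namespace Fermat.Agent.MAZ.TorsCmp32

open Fermat.Agent.Jac Fermat.Agent.Jac.BaseChange75 Fermat.Agent.MAZ.TorsCmp94
open scoped Fermat.Agent.Jac.BaseChange75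

variable {W B0 B1 B01 : Type u} [CommRing W] [CommRing B0] [CommRing B1] [CommRing B01]
  [Algebra W B0] [Algebra W B1] [Algebra W B01] [Algebra B0 B01] [Algebra B1 B01]
  [IsScalarTower W B0 B01] [IsScalarTower W B1 B01]
  (c0 : TwoChart W B0 B1 B01)
  (K1 K2 : Type u) [Field K1] [Field K2] [Algebra W K1] [Algebra W K2] [Algebra K1 K2]
  [IsScalarTower W K1 K2]
  [IsDedekindDomain (K1 ⊗[W] B0)] [IsDedekindDomain (K1 ⊗[W] B1)] [IsDomain (K1 ⊗[W] B01)]
  [IsDedekindDomain (K2 ⊗[W] B0)] [IsDedekindDomain (K2 ⊗[W] B1)] [IsDomain (K2 ⊗[W] B01)]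

include c0 in
/-- **(T3) for `FOmega`**: the genus of the generic fibre `Frac (K ⊗[W] B01)` of a two-chart model
does not depend on the base field. -/
theorem genusFF_FOmega_eq (hc0 : c0.FiniteProjOverLine) :
    genusFF K2 (FOmega (W := W) (B01 := B01) K2) = genusFF K1 (FOmega (W := W) (B01 := B01) K1) := by
  haveI := isFractionRing0_baseChange c0 K1
  haveI := isFractionRing1_baseChange c0 K1
  haveI := isFractionRing0_baseChange c0 K2
  haveI := isFractionRing1_baseChange c0 K2
  exact Fermat.Agent.MAZ.TorsCmp12.genusFF_eq_of_baseChange c0 K1 K2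
    (FOmega (W := W) (B01 := B01) K1) (FOmega (W := W) (B01 := B01) K2) hc0

include c0 in
/-- **(T3) for `FOmega`**, inequality form. -/
theorem genusFF_FOmega_le (hc0 : c0.FiniteProjOverLine) :
    genusFF K2 (FOmega (W := W) (B01 := B01) K2) ≤ genusFF K1 (FOmega (W := W) (B01 := B01) K1) :=
  (genusFF_FOmega_eq c0 K1 K2 hc0).le

end Fermat.Agent.MAZ.TorsCmp32
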