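/-
Programme MAZ (S15), brick U6 TORS-CMP, part (T3-Q) (helper32), file 2: **the function field of the
generic fibre of a hub chart over `L` is the coefficientwise base change of `F`.**

Setting of helper1's `T1B/DescSep1/ExpHub`: `W` a domain with fraction field `K`, `K ⊂ L` fields, `F` a
field over `K` with an injective expansion `e : F →+* K((q))` (identity on constants),
`B : Subalgebra W F` with `Frac B = F` (`hfrac`), and `Fb : IntermediateField L L((q))` which contains
the coefficientwise images `coeffMap (K → L) (e x)`, `x : F` (`hmem`), and is generated over `L` by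
them (`hgen`).  (Application: `W = A ∩ K`, `F = FK N K ⊂ K((q))`, `L = ℚ̄`, `Fb = Fbar N`,
`B = B0 ⊔ B1` the overlap chart of a two-chart model.)  Then

* `hubHom : L ⊗[W] ↥B →+* ↥Fb`, `l ⊗ b ↦ l • coeffMap (e b)` (corestriction of `DescSep1.expHub`),
  injective;
* `fracEquiv : FractionRing (L ⊗[W] ↥B) ≃+* ↥Fb`, compatible with the `L`-algebra structures;
* `compat : AV.F0_6.Place.Compat L (FractionRing (L ⊗[W] ↥B)) L ↥Fb`, hence
  `genusFF_fractionRing_eq : genusFF L (FractionRing (L ⊗[W] ↥B)) = genusFF L ↥Fb`.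
-/
import Mathlib
import Fermat.Agent.T1B.DescSep1.ExpHub
import Fermat.Agent.AV.F0_6.Genus

set_option autoImplicit false
set_option linter.unusedSectionVars false
set_option linter.style.haveILetI false

open TensorProduct

namespace Fermat.Agent.MAZ.TorsCmp32

open HahnSeries ModularCurve AlgebraicCurve
open Fermat.Agent.T1B.DescSep1

universe u

variable {W L F : Type u} {K : Type*} [CommRing W] [IsDomain W] [Field K] [Algebra W K]
  [IsFractionRing W K] [Field L] [Algebra K L] [Algebra W L] [IsScalarTower W K L]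
  [Field F] [Algebra K F] [Algebra W F] [IsScalarTower W K F]
  (e : F →+* LaurentSeries K) (he : ∀ c : K, e (algebraMap K F c) = HahnSeries.C c)
  (B : Subalgebra W F)
  (Fb : IntermediateField L (LaurentSeries L))
  (hmem : ∀ x : F, coeffMap (algebraMap K L) (e x) ∈ Fb)

/-! ### The hub homomorphism -/

theorem C_eq_algebraMap (l : L) :
    (HahnSeries.C l : LaurentSeries L) = algebraMap L (LaurentSeries L) l := by
  rw [algebraMap_laurentSeries_eq_single]
  rfl

include hmem in
/-- The expansion of the generic fibre lands in `Fb`. -/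
theorem expHub_mem (z : L ⊗[W] ↥B) : expHub e he B z ∈ Fb := by
  induction z using TensorProduct.induction_on with
  | zero =>
    rw [map_zero]
    exact zero_mem _
  | tmul l b =>
    rw [expHub_tmul, C_eq_algebraMap]
    exact mul_mem (Fb.algebraMap_mem l) (hmem _)
  | add x y hx hy =>
    rw [map_add]
    exact add_mem hx hy

/-- **The hub homomorphism** `L ⊗[W] ↥B →+* ↥Fb`. -/
noncomputable def hubHom : L ⊗[W] ↥B →+* ↥Fb :=
  (expHub e he B).codRestrict Fb (expHub_mem e he B Fb hmem)

theorem coe_hubHom (z : L ⊗[W] ↥B) :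
    ((hubHom e he B Fb hmem z : ↥Fb) : LaurentSeries L) = expHub e he B z := rfl

theorem coe_hubHom_tmul (l : L) (b : ↥B) :
    ((hubHom e he B Fb hmem (l ⊗ₜ[W] b) : ↥Fb) : LaurentSeries L) =
      algebraMap L (LaurentSeries L) l * coeffMap (algebraMap K L) (e (b : F)) := by
  rw [coe_hubHom, expHub_tmul, C_eq_algebraMap]

theorem hubHom_injective (hinj : Function.Injective e) :
    Function.Injective (hubHom e he B Fb hmem) := fun _ _ hxy =>
  expHub_injective (L := L) e he B hinj (congrArg (fun z : ↥Fb => (z : LaurentSeries L)) hxy)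

/-- `hubHom` is `L`-linear. -/
theorem hubHom_algebraMap (l : L) :
    hubHom e he B Fb hmem (algebraMap L (L ⊗[W] ↥B) l) = algebraMap L ↥Fb l := by
  apply Subtype.ext
  rw [coe_hubHom, Algebra.TensorProduct.algebraMap_apply]
  exact expHub_tmul_one e he B l

/-! ### The isomorphism of fraction fields -/

section Frac

variable (hinj : Function.Injective e) [IsDomain (L ⊗[W] ↥B)]

/-- **The extension of `hubHom` to the fraction field.** -/
noncomputable def fracHom : FractionRing (L ⊗[W] ↥B) →+* ↥Fb :=
  IsFractionRing.lift (hubHom_injective e he B Fb hmem hinj)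

theorem fracHom_algebraMap (z : L ⊗[W] ↥B) :
    fracHom e he B Fb hmem hinj (algebraMap (L ⊗[W] ↥B) (FractionRing (L ⊗[W] ↥B)) z) =
      hubHom e he B Fb hmem z :=
  IsFractionRing.lift_algebraMap (hubHom_injective e he B Fb hmem hinj) z

theorem fracHom_injective : Function.Injective (fracHom e he B Fb hmem hinj) :=
  (fracHom e he B Fb hmem hinj).injective

/-- The coefficientwise base change `F →+* L((q))`. -/
noncomputable def psi : F →+* LaurentSeries L := (coeffMap (algebraMap K L)).comp e

theorem psi_apply (x : F) : psi (L := L) e x = coeffMap (algebraMap K L) (e x) := rfl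

/-- The image of the fraction field in `L((q))`, as an intermediate field. -/
noncomputable def fracRange : IntermediateField L (LaurentSeries L) :=
  Subfield.toIntermediateField
    ((Fb.val : ↥Fb →+* LaurentSeries L).comp (fracHom e he B Fb hmem hinj)).fieldRange
    (fun l => ⟨algebraMap (L ⊗[W] ↥B) (FractionRing (L ⊗[W] ↥B)) (algebraMap L (L ⊗[W] ↥B) l), by
      show ((fracHom e he B Fb hmem hinj _ : ↥Fb) : LaurentSeries L) = _
      rw [fracHom_algebraMap, hubHom_algebraMap]
      rfl⟩)

theorem mem_fracRange {y : LaurentSeries L} :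
    y ∈ fracRange e he B Fb hmem hinj ↔
      ∃ z : FractionRing (L ⊗[W] ↥B), ((fracHom e he B Fb hmem hinj z : ↥Fb) : LaurentSeries L) = y :=
  Iff.rfl

theorem psi_mem_fracRange_of_mem (b : ↥B) : psi (L := L) e (b : F) ∈ fracRange e he B Fb hmem hinj := by
  refine ⟨algebraMap (L ⊗[W] ↥B) (FractionRing (L ⊗[W] ↥B)) ((1 : L) ⊗ₜ[W] b), ?_⟩
  show ((fracHom e he B Fb hmem hinj _ : ↥Fb) : LaurentSeries L) = _
  rw [fracHom_algebraMap, coe_hubHom_tmul, map_one, one_mul]
  rfl

variable (hfrac : ∀ x : F, ∃ b1 b2 : ↥B, (b2 : F) ≠ 0 ∧ x * (b2 : F) = (b1 : F))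

include hfrac in
theorem psi_mem_fracRange (x : F) : psi (L := L) e x ∈ fracRange e he B Fb hmem hinj := by
  obtain ⟨b1, b2, hb2, hx⟩ := hfrac x
  have h2 : psi (L := L) e (b2 : F) ≠ 0 :=
    (map_ne_zero_iff _ (psi (L := L) e).injective).2 hb2
  have hx' : psi (L := L) e x = psi (L := L) e (b1 : F) / psi (L := L) e (b2 : F) := by
    rw [eq_div_iff h2, ← map_mul, hx]
  rw [hx']
  exact div_mem (psi_mem_fracRange_of_mem e he B Fb hmem hinj b1)
    (psi_mem_fracRange_of_mem e he B Fb hmem hinj b2)

variable (hgen : ∀ y ∈ Fb,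
  y ∈ IntermediateField.adjoin L (Set.range fun x : F => coeffMap (algebraMap K L) (e x)))

include hfrac hgen in
theorem fracHom_surjective : Function.Surjective (fracHom e he B Fb hmem hinj) := by
  intro y
  have h1 : IntermediateField.adjoin L (Set.range fun x : F => coeffMap (algebraMap K L) (e x)) ≤
      fracRange e he B Fb hmem hinj := by
    rw [IntermediateField.adjoin_le_iff]
    rintro _ ⟨x, rfl⟩
    exact psi_mem_fracRange e he B Fb hmem hinj hfrac x
  obtain ⟨z, hz⟩ := (mem_fracRange e he B Fb hmem hinj).1 (h1 (hgen y.1 y.2))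
  exact ⟨z, Subtype.ext hz⟩

/-- **The function field of the generic fibre over `L` is `Fb`.** -/
noncomputable def fracEquiv : FractionRing (L ⊗[W] ↥B) ≃+* ↥Fb :=
  RingEquiv.ofBijective (fracHom e he B Fb hmem hinj)
    ⟨fracHom_injective e he B Fb hmem hinj, fracHom_surjective e he B Fb hmem hinj hfrac hgen⟩

theorem fracEquiv_apply (z : FractionRing (L ⊗[W] ↥B)) :
    fracEquiv e he B Fb hmem hinj hfrac hgen z = fracHom e he B Fb hmem hinj z := rfl

theorem fracEquiv_algebraMap (l : L) :
    fracEquiv e he B Fb hmem hinj hfrac hgen (algebraMap L (FractionRing (L ⊗[W] ↥B)) l) =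
      algebraMap L ↥Fb l := by
  rw [fracEquiv_apply, IsScalarTower.algebraMap_apply L (L ⊗[W] ↥B) (FractionRing (L ⊗[W] ↥B)),
    fracHom_algebraMap, hubHom_algebraMap]

/-- The compatible pair `(id, fracEquiv)`. -/
noncomputable def compat :
    Fermat.Agent.AV.F0_6.Place.Compat L (FractionRing (L ⊗[W] ↥B)) L ↥Fb where
  e := RingEquiv.refl L
  φ := fracEquiv e he B Fb hmem hinj hfrac hgen
  comm a := fracEquiv_algebraMap e he B Fb hmem hinj hfrac hgen a

include e he hmem hinj hfrac hgen in
/-- **The genus of the generic fibre over `L` is the genus of `Fb / L`.** -/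
theorem genusFF_fractionRing_eq :
    genusFF L (FractionRing (L ⊗[W] ↥B)) = genusFF L ↥Fb :=
  Fermat.Agent.AV.F0_6.Genus.genusFF_eq (compat e he B Fb hmem hinj hfrac hgen)

end Frac

end Fermat.Agent.MAZ.TorsCmp32
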