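/-
Programme MAZ (S15), brick U6 TORS-CMP, part (T3-Q) (helper32), file 3: **the genus of the generic
fibre of a hub over ANY field `Ω ⊇ L` is the genus of the coefficientwise base change `Fb / L`.**

Setting of helper1's `T1B/DescSep1/HubFinalGen`: `W` a domain with fraction field `K` (char. 0), `F` a
field over `K` with an injective expansion `e : F →+* K((q))`, `B0 B1 B01 : Subalgebra W F` the charts
of `c0 : TwoChart W ↥B0 ↥B1 ↥B01` (finite projective over the line), `t` a transcendental generator of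
`F / K` with `t ∈ B0`, `t⁻¹ ∈ B1`, the charts integrally closed in `F` and integral over `W[t]`,
`W[t⁻¹]`.  `K ⊂ L ⊂ Ω` fields and `Fb : IntermediateField L L((q))` the coefficientwise base change of
`F` (`hmem`, `hgen`).  Then (the instances `IsDomain (L ⊗[W] ↥B01)`, `IsDomain (Ω ⊗[W] ↥B01)`, needed to
state anything about `FOmega`, are `DescSep1.isDomain_overlap e he hinj B01`)

  `genusFF_FOmega_eq_of_hub : genusFF Ω (FOmega c0 Ω) = genusFF L ↥Fb`

(`FOmega c0 Ω = FractionRing (Ω ⊗[W] ↥B01)`, helper94).  Proof: helper12's (T3) for `L → Ω`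
(`FOmegaGenus.genusFF_FOmega_eq`; the Dedekind/domain instances are helper1's
`DescSep1.Gen.isDedekindDomain_chart0/1`, `isDomain_overlap`) and the field isomorphism
`FieldIso.fracEquiv : FractionRing (L ⊗[W] ↥B01) ≃+* ↥Fb`.
-/
import Mathlib
import Fermat.Agent.MAZ.TorsCmp32.FOmegaGenus
import Fermat.Agent.MAZ.TorsCmp32.FieldIso
import Fermat.Agent.T1B.DescSep1.HubFinalGen
import Fermat.Agent.T1.Dict84.ChartNoeth

set_option autoImplicit false
set_option linter.unusedSectionVars false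
set_option linter.style.haveILetI false

open TensorProduct

namespace Fermat.Agent.MAZ.TorsCmp32

open HahnSeries ModularCurve AlgebraicCurve
open Fermat.Agent.Jac Fermat.Agent.X0.FF Fermat.Agent.T1.Dict59
open Fermat.Agent.T1B.DescSep1 Fermat.Agent.MAZ.TorsCmp94
open Fermat.Agent.Jac.BaseChange75
open scoped Fermat.Agent.Jac.BaseChange75

/-! ### `F = Frac B` for an integrally closed chart containing a coordinate -/

section FracChart

variable {R K F : Type*} [CommRing R] [IsDomain R] [Field K] [CharZero K] [Field F] [Algebra R K]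
  [IsFractionRing R K] [Algebra K F] [Algebra R F] [IsScalarTower R K F]
  (B : Subalgebra R F) {t : F}

/-- Every element of `F` is a quotient of two elements of an integrally closed chart `B ∋ t`
integral over `R[t]`, `t` a transcendental generator of `F / K`, `K = Frac R`. -/
theorem exists_frac_of_chart (ht : IsGen K t) (htB : t ∈ B)
    (intcl : ∀ x : F, IsIntegral B x → x ∈ B)
    (int : ∀ x ∈ B, IsIntegral (Algebra.adjoin R {t}) x) (x : F) :
    ∃ b1 b2 : ↥B, (b2 : F) ≠ 0 ∧ x * (b2 : F) = (b1 : F) := by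
  haveI : IsFractionRing ↥(C0 (K := K) t) F := Fermat.Agent.T1.Dict84.isFractionRing_C0 ht
  obtain ⟨c1, c2, hc2, rfl⟩ := IsFractionRing.div_surjective (A := ↥(C0 (K := K) t)) x
  have hc2' : (c2 : F) ≠ 0 := by
    intro h
    have : c2 = 0 := Subtype.ext h
    exact nonZeroDivisors.ne_zero hc2 this
  obtain ⟨z1, hz1⟩ := (baseEquiv (K := K) htB intcl int).surjective c1
  obtain ⟨z2, hz2⟩ := (baseEquiv (K := K) htB intcl int).surjective c2
  obtain ⟨r1, b1, hr1, rfl⟩ := exists_inv_tmul z1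
  obtain ⟨r2, b2, hr2, rfl⟩ := exists_inv_tmul z2
  have e1 : (c1 : F) = algebraMap K F (algebraMap R K r1)⁻¹ * (b1 : F) := by
    rw [← hz1, coe_baseEquiv, mulMap_tmul]
  have e2 : (c2 : F) = algebraMap K F (algebraMap R K r2)⁻¹ * (b2 : F) := by
    rw [← hz2, coe_baseEquiv, mulMap_tmul]
  have hρ1 : algebraMap R F r1 ≠ 0 := by
    rw [IsScalarTower.algebraMap_apply R K F]
    exact (map_ne_zero_iff _ (algebraMap K F).injective).2
      ((map_ne_zero_iff _ (IsFractionRing.injective R K)).2 hr1)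
  have hρ2 : algebraMap R F r2 ≠ 0 := by
    rw [IsScalarTower.algebraMap_apply R K F]
    exact (map_ne_zero_iff _ (algebraMap K F).injective).2
      ((map_ne_zero_iff _ (IsFractionRing.injective R K)).2 hr2)
  have e1' : (c1 : F) = (algebraMap R F r1)⁻¹ * (b1 : F) := by
    rw [e1, map_inv₀, ← IsScalarTower.algebraMap_apply R K F]
  have e2' : (c2 : F) = (algebraMap R F r2)⁻¹ * (b2 : F) := by
    rw [e2, map_inv₀, ← IsScalarTower.algebraMap_apply R K F]
  have hb2 : (b2 : F) ≠ 0 := by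
    intro h
    apply hc2'
    rw [e2', h, mul_zero]
  refine ⟨r2 • b1, r1 • b2, ?_, ?_⟩
  · show ((r1 • b2 : ↥B) : F) ≠ 0
    rw [Subalgebra.coe_smul, Algebra.smul_def]
    exact mul_ne_zero hρ1 hb2
  · show algebraMap ↥(C0 (K := K) t) F c1 / algebraMap ↥(C0 (K := K) t) F c2 * ((r1 • b2 : ↥B) : F) =
      ((r2 • b1 : ↥B) : F)
    rw [Subalgebra.coe_smul, Subalgebra.coe_smul, Algebra.smul_def, Algebra.smul_def]
    show (c1 : F) / (c2 : F) * _ = _
    rw [e1', e2']
    field_simp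

end FracChart

/-! ### The genus of the generic fibre of a hub -/

universe u

variable {W F : Type u} {K : Type*} [CommRing W] [IsDomain W] [Field K] [CharZero K]
  [Algebra W K] [IsFractionRing W K] [Field F] [Algebra K F] [Algebra W F] [IsScalarTower W K F]
  (e : F →+* LaurentSeries K) (he : ∀ c : K, e (algebraMap K F c) = HahnSeries.C c)
  (hinj : Function.Injective e)
  (B0 B1 B01 : Subalgebra W F) [Algebra ↥B0 ↥B01] [Algebra ↥B1 ↥B01]
  [IsScalarTower W ↥B0 ↥B01] [IsScalarTower W ↥B1 ↥B01]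
  (h0 : ∀ x : ↥B0, ((algebraMap ↥B0 ↥B01 x : ↥B01) : F) = x)
  (h1 : ∀ x : ↥B1, ((algebraMap ↥B1 ↥B01 x : ↥B01) : F) = x)
  (c0 : TwoChart W ↥B0 ↥B1 ↥B01) [Algebra.FiniteType W ↥B0] [Algebra.FiniteType W ↥B1]
  {t : F} (ht : IsGen K t) (ht0 : t ∈ B0) (ht1 : t⁻¹ ∈ B1)
  (intcl0 : ∀ x : F, IsIntegral B0 x → x ∈ B0)
  (int0 : ∀ x ∈ B0, IsIntegral (Algebra.adjoin W {t}) x)
  (intcl1 : ∀ x : F, IsIntegral B1 x → x ∈ B1)
  (int1 : ∀ x ∈ B1, IsIntegral (Algebra.adjoin W {t⁻¹}) x)
  (L : Type u) [Field L] [Algebra K L] [Algebra W L] [IsScalarTower W K L]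
  (Fb : IntermediateField L (LaurentSeries L))
  (hmem : ∀ x : F, coeffMap (algebraMap K L) (e x) ∈ Fb)
  (hgen : ∀ y ∈ Fb,
    y ∈ IntermediateField.adjoin L (Set.range fun x : F => coeffMap (algebraMap K L) (e x)))

include h0 ht ht0 intcl0 int0 in
/-- `F = Frac B01` for the overlap chart. -/
theorem exists_frac_overlap (x : F) :
    ∃ b1 b2 : ↥B01, (b2 : F) ≠ 0 ∧ x * (b2 : F) = (b1 : F) := by
  obtain ⟨b1, b2, hb2, hx⟩ := exists_frac_of_chart (K := K) B0 ht ht0 intcl0 int0 x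
  refine ⟨algebraMap ↥B0 ↥B01 b1, algebraMap ↥B0 ↥B01 b2, ?_, ?_⟩
  · rw [h0]; exact hb2
  · rw [h0, h0]; exact hx

include e he hinj h0 ht ht0 intcl0 int0 hmem hgen in
/-- **The genus of the generic fibre over `L` is the genus of `Fb / L`.** -/
theorem genusFF_FOmega_base [IsDomain (L ⊗[W] ↥B01)] :
    genusFF L (FOmega (W := W) (B01 := ↥B01) L) = genusFF L ↥Fb :=
  genusFF_fractionRing_eq e he B01 Fb hmem hinj
    (exists_frac_overlap B0 B01 h0 ht ht0 intcl0 int0) hgen

variable (Ω : Type u) [Field Ω] [Algebra K Ω] [Algebra W Ω] [IsScalarTower W K Ω]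
  [Algebra L Ω] [IsScalarTower W L Ω] [IsDomain (L ⊗[W] ↥B01)] [IsDomain (Ω ⊗[W] ↥B01)]

include e he hinj h0 h1 ht ht0 ht1 intcl0 int0 intcl1 int1 hmem hgen in
/-- **(T3) + (T3-Q)**: the genus of the generic fibre of the hub over ANY field `Ω ⊇ L` is the genus
of the coefficientwise base change `Fb / L` of `F / K`. -/
theorem genusFF_FOmega_eq_of_hub (hc0 : c0.FiniteProjOverLine) :
    genusFF Ω (FOmega (W := W) (B01 := ↥B01) Ω) = genusFF L ↥Fb := by
  haveI := Gen.isDedekindDomain_chart0 e he hinj B0 B01 h0 L ht ht0 intcl0 int0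
  haveI := Gen.isDedekindDomain_chart1 e he hinj B1 B01 h1 L ht ht1 intcl1 int1
  haveI := Gen.isDedekindDomain_chart0 e he hinj B0 B01 h0 Ω ht ht0 intcl0 int0
  haveI := Gen.isDedekindDomain_chart1 e he hinj B1 B01 h1 Ω ht ht1 intcl1 int1
  rw [genusFF_FOmega_eq c0 L Ω hc0]
  exact genusFF_FOmega_base e he hinj B0 B01 h0 ht ht0 intcl0 int0 L Fb hmem hgen

include e he hinj h0 h1 ht ht0 ht1 intcl0 int0 intcl1 int1 hmem hgen in
/-- **(T3)** in the shape asked for by the TORS-CMP count. -/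
theorem genusFF_FOmega_le_of_hub (hc0 : c0.FiniteProjOverLine) :
    genusFF Ω (FOmega (W := W) (B01 := ↥B01) Ω) ≤ genusFF L ↥Fb :=
  (genusFF_FOmega_eq_of_hub e he hinj B0 B1 B01 h0 h1 c0 ht ht0 ht1 intcl0 int0 intcl1 int1 L Fb
    hmem hgen Ω hc0).le

end Fermat.Agent.MAZ.TorsCmp32
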