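/-
Programme MAZ (S15), brick U6 TORS-CMP, part (T3-Q) (helper32), file 4: **the genus inequality `hg`
of `TorsCmp73.hcmp_nodal` for the NODAL hub**, in the binder shape of helper1's
`T1B/DescSep1/NodalModelGen` (= helper94's `TorsCmp94/Nodal.lean`, helper73's `TorsCmp73/Nodal.lean`).

`W` a domain with fraction field `K` (char. `0`), `M : NodalTwoChartModel W F π t B0 B1 O1 O2` a nodal
two-chart model inside a field `F / K` with an injective expansion `e : F →+* K((q))`, `t` a
transcendental generator of `F / K`, charts of finite type over `W` and finite projective over the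
line.  `K ⊂ L ⊂ Ω` fields, `Fb : IntermediateField L L((q))` the coefficientwise base change of `F`
(`hmem`, `hgen`).  Then

  `genusFF_FOmega_eq_nodal : genusFF Ω (FOmega Ω) = genusFF L ↥Fb`      (and `_le_`),

`FOmega Ω = FractionRing (Ω ⊗[W] ↥(B0 ⊔ B1))` with the field structure coming from
`isDomain01_nodal e he hinj Ω` (helper94), exactly as in the hypothesis `hg` of
`TorsCmp73.hcmp_nodal` / `hcmp_nodal_sub`.
-/
import Mathlib
import Fermat.Agent.MAZ.TorsCmp32.HubGenus
import Fermat.Agent.MAZ.TorsCmp94.Nodal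

set_option autoImplicit false
set_option linter.unusedSectionVars false
set_option linter.style.haveILetI false
set_option synthInstance.maxHeartbeats 400000
set_option maxHeartbeats 1000000

open TensorProduct

namespace Fermat.Agent.MAZ.TorsCmp32

open HahnSeries ModularCurve AlgebraicCurve
open Fermat.Agent.Jac Fermat.Agent.X0.FF
open Fermat.Agent.T1B.DescSep1 Fermat.Agent.MAZ.TorsCmp94
open Fermat.Agent.T1B.NodalFacts23 Fermat.Agent.ES.N34.NodalCore13
open Fermat.Agent.T1.Coh60 (algebra0 algebra1 isScalarTower0 isScalarTower1)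
open Fermat.Agent.T1B.DescSep1.Gen
open Fermat.Agent.Jac.BaseChange75
open scoped Fermat.Agent.Jac.BaseChange75

universe u

attribute [local instance] algebra0 algebra1 isScalarTower0 isScalarTower1

variable {W F : Type u} {K : Type*} [CommRing W] [IsDomain W] [Field K] [CharZero K]
  [Algebra W K] [IsFractionRing W K] [Field F] [Algebra K F] [Algebra W F] [IsScalarTower W K F]
  (e : F →+* LaurentSeries K) (he : ∀ c : K, e (algebraMap K F c) = HahnSeries.C c)
  (hinj : Function.Injective e)
  {π : W} {t : F} {B0 B1 : Subalgebra W F} {O1 O2 : ValuationSubring F}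
  (Ω : Type u) [Field Ω] [Algebra K Ω] [Algebra W Ω] [IsScalarTower W K Ω]
  (M : NodalTwoChartModel W F π t B0 B1 O1 O2)
  [Algebra.FiniteType W ↥B0] [Algebra.FiniteType W ↥B1] (ht : IsGen K t)
  (hfp : (cNodal M).FiniteProjOverLine)
  (L : Type u) [Field L] [Algebra K L] [Algebra W L] [IsScalarTower W K L]
  [Algebra L Ω] [IsScalarTower W L Ω]
  (Fb : IntermediateField L (LaurentSeries L))
  (hmem : ∀ x : F, coeffMap (algebraMap K L) (e x) ∈ Fb)
  (hgen : ∀ y ∈ Fb,
    y ∈ IntermediateField.adjoin L (Set.range fun x : F => coeffMap (algebraMap K L) (e x)))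

include e he hinj ht hfp hmem hgen in
/-- **(T3) + (T3-Q) for the nodal hub**: the genus of the generic fibre over ANY field `Ω ⊇ L` is the
genus of the coefficientwise base change `Fb / L` of `F / K`. -/
theorem genusFF_FOmega_eq_nodal :
    haveI := isDomain01_nodal e he hinj Ω (B0 := B0) (B1 := B1)
    genusFF Ω (FOmega (W := W) (B01 := ↥(B0 ⊔ B1)) Ω) = genusFF L ↥Fb := by
  haveI := isDomain01_nodal e he hinj Ω (B0 := B0) (B1 := B1)
  haveI := isDomain01_nodal e he hinj L (B0 := B0) (B1 := B1)
  exact genusFF_FOmega_eq_of_hub (W := W) (F := F) (K := K) e he hinj B0 B1 (B0 ⊔ B1)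
    (fun _ => rfl) (fun _ => rfl) (cNodal M) ht M.t_mem M.tinv_mem M.intcl0 M.int0 M.intcl1 M.int1
    L Fb hmem hgen Ω hfp

include e he hinj ht hfp hmem hgen in
/-- **`hg` of `TorsCmp73.hcmp_nodal` / `hcmp_nodal_sub`** (with `Q := L`, `FQ := ↥Fb`). -/
theorem genusFF_FOmega_le_nodal :
    haveI := isDomain01_nodal e he hinj Ω (B0 := B0) (B1 := B1)
    genusFF Ω (FOmega (W := W) (B01 := ↥(B0 ⊔ B1)) Ω) ≤ genusFF L ↥Fb := by
  haveI := isDomain01_nodal e he hinj Ω (B0 := B0) (B1 := B1)
  exact (genusFF_FOmega_eq_nodal e he hinj Ω M ht hfp L Fb hmem hgen).le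

end Fermat.Agent.MAZ.TorsCmp32
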