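/-
Programme MAZ (S15), brick U6 TORS-CMP, part (T3-Q) (helper32), file 5: **the concrete statement over
`ℚ̄`: the genus of the generic fibre of a nodal two-chart model of `X₀(N)` over `W = A ∩ K` is
`genusFF ℚ̄ (modularFunctionFieldBar N)` over EVERY field `Ω ⊇ ℚ̄`, in particular over `ℚ̄_p`.**

`A` a valuation ring of `ℚ̄`, `K ⊂ ℚ̄` a subfield, `W = AK A K = A ∩ K`, `F = FK N K ⊂ K((q))` the
function field of `X₀(N)` over `K` with its expansion `expFK K N : FK N K →+* K((q))` (the inclusion),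
`M : NodalTwoChartModel W F π t B0 B1 O1 O2` a nodal two-chart model (the hub of T1B at level
`N = M' p`), charts of finite type and finite projective over the line, `t` a transcendental generator.

* `coeffMap_expFK_mem` (`hmem`), `mem_adjoin_of_mem_Fbar` (`hgen`): `Fbar N = ℚ̄ · (FK N K)`;
* `genusFF_FOmega_eq_Fbar_nodal` / `genusFF_FOmega_le_Fbar_nodal` : for every field `Ω` over `ℚ̄`
  (compatibly over `W`, `K`): `genusFF Ω (FOmega Ω) = (≤) genusFF ℚ̄ (modularFunctionFieldBar N)`;
* `Ω = Kbar p = ℚ̄_p` : `TorsCmp32/Kbar.lean` (`hg_Kbar_nodal`).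
-/
import Mathlib
import Fermat.Agent.MAZ.TorsCmp32.NodalGenus
import Fermat.Agent.RED.DESC.CoeffDescent1
import Fermat.Agent.T1.Assembly41.FastInst

set_option autoImplicit false
set_option linter.unusedSectionVars false
set_option linter.style.haveILetI false
set_option synthInstance.maxHeartbeats 400000
set_option maxHeartbeats 1000000

open TensorProduct

namespace Fermat.Agent.MAZ.TorsCmp32

open HahnSeries ModularCurve AlgebraicCurve
open Fermat.Agent.Jac Fermat.Agent.X0.FF Fermat.Agent.RED.Interface4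
open Fermat.Agent.T1B.DescSep1 Fermat.Agent.MAZ.TorsCmp94
open Fermat.Agent.Jac.BaseChange75
open scoped Fermat.Agent.Jac.BaseChange75
open scoped Fermat.Agent.T1.Assembly41.FastInst
open Fermat.Agent.T1B.NodalFacts23 Fermat.Agent.ES.N34.NodalCore13
open Fermat.Agent.T1.Coh60 (algebra0 algebra1 isScalarTower0 isScalarTower1)
open Fermat.Agent.T1B.DescSep1.Gen

attribute [local instance] algebra0 algebra1 isScalarTower0 isScalarTower1

variable (K : IntermediateField ℚ Qbar) (N : ℕ)

/-- The expansion at `∞` of `FK N K ⊂ K((q))`. -/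
noncomputable def expFK : ↥(FK N K) →+* LaurentSeries ↥K := (FK N K).val.toRingHom

theorem expFK_apply (x : ↥(FK N K)) : expFK K N x = (x : LaurentSeries ↥K) := rfl

theorem expFK_algebraMap (c : ↥K) :
    expFK K N (algebraMap ↥K ↥(FK N K) c) = HahnSeries.C c :=
  (C_eq_algebraMap (L := ↥K) c).symm

theorem expFK_injective : Function.Injective (expFK K N) := Subtype.val_injective

/-- (`hmem`) the coefficientwise base change of `FK N K` lies in `Fbar N`. -/
theorem coeffMap_expFK_mem (x : ↥(FK N K)) :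
    coeffMap (algebraMap ↥K Qbar) (expFK K N x) ∈ Fbar N :=
  Fermat.Agent.RED.DESC.CoeffDescent1.coeffMap_mem_laurentBaseChange_of_algHom
    (algebraMap ↥K Qbar) (modularFunctionFieldFull N) x.2

/-- (`hgen`) `Fbar N` is generated over `ℚ̄` by the coefficientwise base change of `FK N K`. -/
theorem mem_adjoin_of_mem_Fbar (y : LaurentSeries Qbar) (hy : y ∈ Fbar N) :
    y ∈ IntermediateField.adjoin Qbar
      (Set.range fun x : ↥(FK N K) => coeffMap (algebraMap ↥K Qbar) (expFK K N x)) := by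
  refine IntermediateField.adjoin.mono Qbar _ _ ?_ hy
  rintro _ ⟨x₀, hx₀, rfl⟩
  refine ⟨⟨coeffEmb ↥K x₀, coeffEmb_mem_laurentBaseChange ↥K hx₀⟩, ?_⟩
  exact Fermat.Agent.RED.DESC.CoeffDescent1.coeffMap_coeffEmb_of_algHom (algebraMap ↥K Qbar) x₀

/-! ### Any field over `ℚ̄` -/

section General

/-- shortcut (typeclass search at these types is slow): `Algebra (A ∩ K) ℚ̄`, Mathlib's instance. -/
noncomputable local instance (priority := 10000) algOQbar (A : ValuationSubring Qbar) :
    Algebra ↥(AK A K) Qbar := inferInstance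

/-- shortcut: the tower `A ∩ K → K → ℚ̄`, Mathlib's instance. -/
local instance (priority := 10000) towerOKQbar (A : ValuationSubring Qbar) :
    IsScalarTower ↥(AK A K) ↥K Qbar := inferInstance

variable (A : ValuationSubring Qbar)
  {π : ↥(AK A K)} {t : ↥(FK N K)} {B0 B1 : Subalgebra ↥(AK A K) ↥(FK N K)}
  {O1 O2 : ValuationSubring ↥(FK N K)}
  (M : NodalTwoChartModel ↥(AK A K) ↥(FK N K) π t B0 B1 O1 O2)
  [Algebra.FiniteType ↥(AK A K) ↥B0] [Algebra.FiniteType ↥(AK A K) ↥B1] (ht : IsGen ↥K t)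
  (hfp : (cNodal M).FiniteProjOverLine)
  (Ω : Type) [Field Ω] [Algebra ↥K Ω] [Algebra ↥(AK A K) Ω] [IsScalarTower ↥(AK A K) ↥K Ω]
  [Algebra Qbar Ω] [IsScalarTower ↥(AK A K) Qbar Ω]

include ht hfp in
/-- **(T3) + (T3-Q)**: over EVERY field `Ω ⊇ ℚ̄`, the genus of the generic fibre of the nodal two-chart
model of `X₀(N)` is the genus of `X₀(N)` over `ℚ̄`. -/
theorem genusFF_FOmega_eq_Fbar_nodal :
    haveI := isDomain01_nodal (expFK K N) (expFK_algebraMap K N) (expFK_injective K N) Ω
      (B0 := B0) (B1 := B1)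
    genusFF Ω (FOmega (W := ↥(AK A K)) (B01 := ↥(B0 ⊔ B1)) Ω) =
      genusFF Qbar ↥(modularFunctionFieldBar N) :=
  genusFF_FOmega_eq_nodal (W := ↥(AK A K)) (F := ↥(FK N K)) (K := ↥K) (expFK K N)
    (expFK_algebraMap K N) (expFK_injective K N) Ω M ht hfp Qbar (Fbar N)
    (coeffMap_expFK_mem K N) (mem_adjoin_of_mem_Fbar K N)

include ht hfp in
/-- The inequality form (`hg` of `TorsCmp73.hcmp_nodal`, `Q := ℚ̄`, `FQ := modularFunctionFieldBar N`). -/
theorem genusFF_FOmega_le_Fbar_nodal :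
    haveI := isDomain01_nodal (expFK K N) (expFK_algebraMap K N) (expFK_injective K N) Ω
      (B0 := B0) (B1 := B1)
    genusFF Ω (FOmega (W := ↥(AK A K)) (B01 := ↥(B0 ⊔ B1)) Ω) ≤
      genusFF Qbar ↥(modularFunctionFieldBar N) :=
  le_of_eq (genusFF_FOmega_eq_Fbar_nodal K N A M ht hfp Ω)

end General

end Fermat.Agent.MAZ.TorsCmp32
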